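import Fermat.Agent.S37.Red.SpecMod
import Fermat.Agent.S18.H9.Res

/-!
# S37 node_rim — assembly (architect: helper40)

`node_rim_of_pieces` : the Prelude's `ReductionInputsModL A N` (= NODE [RIM] of the row board,
`origin/helper37:Fermat/Agent/S37/Core/Skeleton3.lean`) from the three pieces

* `MainStatement`                       (abstract: a datum with good charts has a place
                                         reduction map; RED-A1 + RED-A + helper940's core),
* `M : ModDatum N A`                    (RED-E: the modular instantiation),
* `PrincipalGeneratedByIntegral A _ N`  (PGI; helper700 `H700.pgi`, landed).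

Everything here is fully proved.
-/

set_option autoImplicit false
set_option synthInstance.maxHeartbeats 400000

noncomputable section

namespace Fermat.Agent.S37.Red

open ModularCurve AlgebraicCurve HahnSeries IsLocalRing

/-- **RED-E1**: for a `ModDatum`, the abstract (i)+(ii) give the Prelude's
`IsPlaceReductionModL`. -/
theorem isPlaceReductionOfIsRed : IsPlaceReductionOfIsRedStatement := by
  intro N A M r hr
  refine ⟨hr.1, ?_⟩
  intro y hy hyk hne D hD Q
  obtain ⟨h, hρ⟩ := M.link y hy hyk hne
  have hne' : M.G.ρ ⟨⟨coeffMap A.subtype y, hy⟩, h⟩ ≠ 0 := by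
    rw [hρ]
    intro h0
    exact hne (congrArg Subtype.val h0)
  have key := hr.2 _ h hne' D hD Q
  rw [hρ] at key
  exact key

/-- the residue field of a valuation ring of `Q̄` is algebraically closed -/
theorem isAlgClosed_kA (A : ValuationSubring Qb) : IsAlgClosed (kA A) :=
  Fermat.Agent.S18.H9.resAlgClosed Qb A

/-- **NODE [RIM] from the pieces.** -/
theorem node_rim_of_pieces (hMain : MainStatement.{0}) (N : ℕ) (A : ValuationSubring Qb)
    (M : ModDatum N A) (hpgi : PrincipalGeneratedByIntegral A (residue A) N) :
    ReductionInputsModL A N := by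
  haveI : IsAlgClosed (kA A) := isAlgClosed_kA A
  obtain ⟨r, hr, -⟩ := hMain Qb (kA A) (FN N) (FNk A N) A (residue A) M.G M.good
  exact ⟨r, isPlaceReductionOfIsRed N A M r hr, hpgi⟩

end Fermat.Agent.S37.Red
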